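/-
S19, part D (glue with the frozen statement).  Owner: helper259.

`Tors N n = J₀(N)[n]` with its Galois action; finiteness (S27); finite level (S17/W);
the frozen S19 follows from `IsFlatModule ℓ (Tors N (ℓ ^ k))`.
-/
import Fermat.Agent.S19.Defs
import Fermat.Agent.S27.General
import Fermat.Agent.S17.W.OpenStab

set_option autoImplicit false

noncomputable section

namespace Fermat.Agent.S19.Glue

open ModularCurve AlgebraicCurve

/-- `J₀(N)[n]`. -/
abbrev Tors (N n : ℕ) : Type := Pic0.torsion Qb (modularFunctionFieldBar N) n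

/-- The semilinear automorphism of `ℚ̄(X₀(N))` attached to `σ`. -/
abbrev gal (N : ℕ) (σ : Gal) : SemilinearAut Qb (modularFunctionFieldBar N) :=
  arithmeticGalois (L := Qb) (modularFunctionFieldFull N) σ

instance instActionTors (N n : ℕ) : DistribMulAction Gal (Tors N n) :=
  DistribMulAction.compHom _ (arithmeticGalois (L := Qb) (modularFunctionFieldFull N))

theorem smul_def (N n : ℕ) (σ : Gal) (x : Tors N n) : σ • x = gal N σ • x := rfl

theorem coe_smul (N n : ℕ) (σ : Gal) (x : Tors N n) :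
    ((σ • x : Tors N n) : JZero N) = σ • (x : JZero N) := rfl

theorem isFF1 (N : ℕ) [NeZero N] : S24.FF.IsFF1 Qb (modularFunctionFieldBar N) :=
  Fermat.Agent.S24.Export.isFF1 N

theorem nonConst (N : ℕ) [NeZero N] : S27.NonConst Qb (modularFunctionFieldBar N) :=
  ⟨⟨S24.jF N, S24.Formal.transcendental_jF N⟩⟩

/-- (D1) finiteness, from S27. -/
theorem finite_tors (N n : ℕ) [NeZero N] (hn : 0 < n) : Finite (Tors N n) := by
  have := isFF1 N
  have := nonConst N
  have h := S27.card_torsion_general Qb (modularFunctionFieldBar N) n hn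
  exact Nat.finite_of_card_ne_zero (by rw [h]; positivity)

/-- (D1') every torsion class is fixed by the absolute Galois group of a number field. -/
theorem exists_finite_level (N n : ℕ) [NeZero N] (x : Tors N n) :
    ∃ L : IntermediateField ℚ Qb, FiniteDimensional ℚ L ∧
      ∀ σ : Gal, (∀ a ∈ L, σ a = a) → σ • x = x := by
  obtain ⟨D, hD⟩ := Pic0.mk_surjective (x : JZero N)
  obtain ⟨L, hL, h⟩ := S17.W.exists_finite_level_divisor N (D : Divisor Qb (modularFunctionFieldBar N))
  refine ⟨L, hL, fun σ hσ => Subtype.ext ?_⟩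
  rw [coe_smul, ← hD]
  show arithmeticGalois (modularFunctionFieldFull N) σ • (Pic0.mk D) = Pic0.mk D
  rw [SemilinearAut.pic0_smul_mk]
  refine congrArg Pic0.mk (Subtype.ext ?_)
  rw [SemilinearAut.coe_degZeroSMulHom]
  exact h σ hσ

/-- The comparison with the torsion submodule of the frozen statement. -/
def torsEquiv (N ℓ k : ℕ) :
    Tors N (ℓ ^ k) ≃ ↥(Submodule.torsionBy ℤ (JZero N) ((ℓ : ℤ) ^ k)) :=
  Equiv.subtypeEquivRight fun x => by
    rw [Pic0.mem_torsion, Submodule.mem_torsionBy_iff]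
    push_cast
    rfl

theorem coe_torsEquiv (N ℓ k : ℕ) (x : Tors N (ℓ ^ k)) :
    ((torsEquiv N ℓ k x : ↥(Submodule.torsionBy ℤ (JZero N) ((ℓ : ℤ) ^ k))) : JZero N) = x := rfl

/-- (D3) the frozen statement S19 from flatness of `Tors`. -/
theorem frozen_of_isFlatModule (p ℓ k : ℕ) (h : IsFlatModule ℓ (Tors p (ℓ ^ k))) :
    ∃ (H : Type) (_ : CommRing H) (_ : HopfAlgebra (GaloisRep.ratLocalizedAt ℓ) H),
      Module.Finite (GaloisRep.ratLocalizedAt ℓ) H ∧ Module.Flat (GaloisRep.ratLocalizedAt ℓ) H ∧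
      Coalgebra.IsCocomm (GaloisRep.ratLocalizedAt ℓ) H ∧
      ∃ e : WithConv (H →ₐ[GaloisRep.ratLocalizedAt ℓ] AlgebraicClosure ℚ) ≃
          ↥(Submodule.torsionBy ℤ (JZero p) ((ℓ : ℤ) ^ k)),
        (∀ f g, e (f * g) = e f + e g) ∧
        ∀ (σ : AlgebraicClosure ℚ ≃ₐ[ℚ] AlgebraicClosure ℚ)
          (f g : WithConv (H →ₐ[GaloisRep.ratLocalizedAt ℓ] AlgebraicClosure ℚ)),
          (∀ h : H, g h = σ (f h)) → ((e g : JZero p)) = σ • (e f : JZero p) := by
  obtain ⟨H, i1, i2, hfin, hflat, hco, e, he1, he2⟩ := h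
  refine ⟨H, i1, i2, hfin, hflat, hco, e.trans (torsEquiv p ℓ k), ?_, ?_⟩
  · intro f g
    apply Subtype.ext
    show ((e (f * g) : Tors p (ℓ ^ k)) : JZero p) = _
    rw [he1]
    rfl
  · intro σ f g hfg
    show ((e g : Tors p (ℓ ^ k)) : JZero p) = σ • ((e f : Tors p (ℓ ^ k)) : JZero p)
    rw [he2 σ f g hfg]
    rfl

end Fermat.Agent.S19.Glue

end
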