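/-
S19, part D (glue): the Weil pairing on `J₀(N)[n]` feeds Theorem A.  Owner: helper259.

`IntStmt N ℓ n` is the integrality statement (Part C);  `hasHopfOrder_of_intStmt` turns it into a
Hopf order in the function algebra of `J₀(N)[n]`.
-/
import Fermat.Agent.S19.Glue.Defs
import Fermat.Agent.S19.Weil.Nondeg
import Fermat.Agent.S19.Weil.Divisible
import Fermat.Agent.S19.TheoremA
import Fermat.Agent.S19.T.Defs

set_option autoImplicit false

noncomputable section

namespace Fermat.Agent.S19.Glue

open ModularCurve AlgebraicCurve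

/-- The Weil pairing on `J₀(N)[n]`. -/
def iota (N n : ℕ) (v w : Tors N n) : Qb := Weil.weil n (v : JZero N) (w : JZero N)

/-- The integrality statement (Part C): for every valuation ring `A` of `ℚ̄` over `ℓ`, the
functions `w ↦ e_n(v, w)` lie in the `A`-span of the equivariant integral functions. -/
def IntStmt (N ℓ n : ℕ) : Prop :=
  ∀ A : ValuationSubring Qb, A.LiesOverPrime ℓ → ∀ v : Tors N n, InSpan ℓ A (iota N n v)

theorem nonempty_embedding : Nonempty (Qb →+* ℂ) := ⟨Fermat.Agent.S24.iota⟩

theorem tors_smul_eq_zero (N n : ℕ) (v : Tors N n) : (n : ℤ) • (v : JZero N) = 0 :=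
  Pic0.mem_torsion.1 v.2

theorem iota_ne_zero (N n : ℕ) [NeZero N] (hn : 0 < n) (v w : Tors N n) : iota N n v w ≠ 0 := by
  have := isFF1 N
  have := nonConst N
  exact Weil.weil_ne_zero hn _ _

theorem iota_add (N n : ℕ) [NeZero N] (hn : 0 < n) (v v' w : Tors N n) :
    iota N n (v + v') w = iota N n v w * iota N n v' w := by
  have := isFF1 N
  have := nonConst N
  exact Weil.weil_add_left hn (tors_smul_eq_zero N n v) (tors_smul_eq_zero N n v')
    (tors_smul_eq_zero N n w)

theorem iota_smul (N n : ℕ) [NeZero N] (hn : 0 < n) (σ : Gal) (v w : Tors N n) :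
    iota N n (σ • v) (σ • w) = σ (iota N n v w) := by
  have := isFF1 N
  have := nonConst N
  exact Weil.weil_smul hn (gal N σ) (tors_smul_eq_zero N n v) (tors_smul_eq_zero N n w)

theorem iota_zero (N n : ℕ) [NeZero N] (hn : 0 < n) (w : Tors N n) : iota N n 0 w = 1 := by
  have h := iota_add N n hn 0 0 w
  rw [add_zero] at h
  exact (mul_eq_left₀ (iota_ne_zero N n hn 0 w)).1 h.symm

theorem iota_injective (N n : ℕ) [NeZero N] (hn : 0 < n) : Function.Injective (iota N n) := by
  have := isFF1 N
  have := nonConst N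
  intro v v' h
  by_contra hne
  have hx0 : ((v - v' : Tors N n) : JZero N) ≠ 0 := by
    intro h0
    exact hne (sub_eq_zero.1 (Subtype.ext h0))
  obtain ⟨y, hy, hy1⟩ := Weil.weil_nondegenerate
    (Weil.pic0Divisible Qb nonempty_embedding) hn (tors_smul_eq_zero N n (v - v')) hx0
  apply hy1
  have h1 := iota_add N n hn (v - v') v' ⟨y, Pic0.mem_torsion.2 hy⟩
  rw [sub_add_cancel, h] at h1
  exact (mul_eq_right₀ (iota_ne_zero N n hn v' _)).1 h1.symm

/-- (D2) the integrality statement produces a Hopf order. -/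
theorem hasHopfOrder_of_intStmt (N ℓ n : ℕ) [NeZero N] [Fact ℓ.Prime] (hn : 0 < n)
    (h : IntStmt N ℓ n) : HasHopfOrder ℓ (Tors N n) := by
  have := finite_tors N n hn
  exact hasHopfOrder_of_pairing ℓ (iota N n) (iota_add N n hn) (iota_smul N n hn)
    (iota_injective N n hn) h

/-- (D1'') the Galois action on `J₀(N)[n]` factors through a number field. -/
theorem isSmoothAct_tors (N n : ℕ) [NeZero N] (hn : 0 < n) : IsSmoothAct (Tors N n) := by
  have := finite_tors N n hn
  obtain ⟨L, hL, h⟩ := Fermat.Agent.GAL.E.exists_finite_level_of_finite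
    (fun (x : Tors N n) (σ : Gal) => σ • x = x) (exists_finite_level N n)
  exact ⟨L, hL, fun σ hσ y => h σ ((IntermediateField.mem_fixingSubgroup_iff L σ).1 hσ) y⟩

end Fermat.Agent.S19.Glue

end
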