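/-
S19, part E (level raising), modular input.  Owner of the statement: helper259.

For `r` prime to `N` the covering `α : X₀(N r) → X₀(N)` has a point (the cusp `0`-side point above `∞`) with
ramification index `≥ r`.

Proof.  `Lib.MulHecke.exists_embedding N r hr 0` gives `τ : FN (N r) →+* ℚ̄((t))` with
`τ (α x) = x(t^(N r))` and `τ (β x) = x(t^N)` (the twist by `ζ^0 = 1` is the identity).  The `t`-adic valuation composed with `τ`
gives a place `w` of `FN (N r)` (`S24.CL.placeOfValuation`, exactly as `S17.W.cusp`), and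
`S24.CL.exists_mul_ord_placeOfValuation` gives `m > 0` with `order (τ y) = m * w.ord y`.  From `y = β (jF N)`:
`m * w.ord y = - N`, so `m ∣ N`, say `N = m c`, `c ≥ 1`.  From `y = α x`: `m * w.ord (α x) = N r * order x`, i.e.
`w.ord (α x) = c r * order x`.  Hence every positive value of `w.ord ∘ α` is `≥ r`.
-/
import Fermat.Agent.Lib.MulHecke.Embed
import Fermat.Agent.S17.W.Cusp
import Fermat.Prelude.Def_AlgebraicCurve_Correspondence

set_option autoImplicit false

noncomputable section

namespace Fermat.Agent.S19.Glue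

open ModularCurve AlgebraicCurve Fermat.Agent.S24

/-- The `t`-adic valuation is `exp (- order)`. -/
theorem AlphaRam.valuation_eq_exp_neg_order (f : LaurentSeries Kbar) (hf : f ≠ 0) :
    (PowerSeries.idealX Kbar).valuation (LaurentSeries Kbar) f = WithZero.exp (-f.order) := by
  have hv : (PowerSeries.idealX Kbar).valuation (LaurentSeries Kbar) f ≠ 0 :=
    (Valuation.ne_zero_iff _).mpr hf
  have h1 : (PowerSeries.idealX Kbar).valuation (LaurentSeries Kbar) f ≤
      WithZero.exp (-f.order) :=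
    (LaurentSeries.valuation_le_iff_coeff_lt_eq_zero Kbar (D := f.order) (f := f)).mpr
      fun n hn => HahnSeries.coeff_eq_zero_of_lt_order hn
  have h2 : ¬ (PowerSeries.idealX Kbar).valuation (LaurentSeries Kbar) f ≤
      WithZero.exp (-(f.order + 1)) := by
    intro h
    exact hf (HahnSeries.coeff_order_eq_zero.mp
      ((LaurentSeries.valuation_le_iff_coeff_lt_eq_zero Kbar (D := f.order + 1) (f := f)).mp h _
        (by omega)))
  rw [← WithZero.exp_log hv] at h1 h2 ⊢
  rw [WithZero.exp_le_exp] at h1 h2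
  congr 1
  omega

theorem AlphaRam.jF_ne_zero (N : ℕ) : jF N ≠ 0 := by
  have hj : ((jF N : FN N) : LaurentSeries Kbar) = Jser 1 := rfl
  intro h
  have h1 : (Jser 1).order = 0 := by rw [← hj, h]; simp
  rw [B.order_Jser_one] at h1
  omega

theorem exists_place_le_ramificationIndexAlong (N r : ℕ) [NeZero N] [NeZero r]
    (hr : Nat.Coprime r N) :
    ∃ w : Place Kbar (FN (N * r)), r ≤ w.ramificationIndexAlong (heckeAlphaBar Kbar N r) := by
  obtain ⟨τ, hα, hβ⟩ := Lib.MulHecke.exists_embedding N r hr 0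
  have hN0 : 0 < N := Nat.pos_of_ne_zero (NeZero.ne N)
  have hr0 : 0 < r := Nat.pos_of_ne_zero (NeZero.ne r)
  have hj : ((jF N : FN N) : LaurentSeries Kbar) = Jser 1 := rfl
  have hj0 : jF N ≠ 0 := AlphaRam.jF_ne_zero N
  let W : Valuation (FN (N * r)) (WithZero (Multiplicative ℤ)) :=
    ((PowerSeries.idealX Kbar).valuation (LaurentSeries Kbar)).comap τ
  have hW : ∀ y : FN (N * r), y ≠ 0 → W y = WithZero.exp (-(τ y).order) := fun y hy =>
    AlphaRam.valuation_eq_exp_neg_order _ ((map_ne_zero τ).2 hy)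
  have hαord : ∀ x : FN N, (τ (heckeAlphaBar Kbar N r x)).order =
      ((N * r : ℕ) : ℤ) * (x : LaurentSeries Kbar).order := by
    intro x
    rw [hα, B.order_qExpand]
  have hα0 : ∀ x : FN N, x ≠ 0 → heckeAlphaBar Kbar N r x ≠ 0 := fun x hx =>
    (map_ne_zero (heckeAlphaBar Kbar N r)).2 hx
  have hK : ∀ a : Kbar, a ≠ 0 → W (algebraMap Kbar (FN (N * r)) a) = 1 := by
    intro a ha
    have h0 : algebraMap Kbar (FN (N * r)) a ≠ 0 := by simpa using ha
    rw [hW _ h0, ← (heckeAlphaBar Kbar N r).commutes a, hαord]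
    have : ((algebraMap Kbar (FN N) a : FN N) : LaurentSeries Kbar) = HahnSeries.single 0 a := by
      show algebraMap Kbar (LaurentSeries Kbar) a = _
      exact algebraMap_laurentSeries_eq_single Kbar a
    rw [this, HahnSeries.order_single ha]
    simp
  have hinv : (((jF N)⁻¹ : FN N) : LaurentSeries Kbar).order = 1 := by
    have h1 : (((jF N)⁻¹ : FN N) : LaurentSeries Kbar) = (Jser 1)⁻¹ := by
      rw [← hj]; rfl
    have hJ0 : (Jser 1 : LaurentSeries Kbar) ≠ 0 := by
      intro h2
      have h3 : (Jser 1).order = 0 := by rw [h2]; simp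
      rw [B.order_Jser_one] at h3
      omega
    have h4 := HahnSeries.order_mul hJ0 (inv_ne_zero hJ0)
    rw [mul_inv_cancel₀ hJ0, HahnSeries.order_one, B.order_Jser_one] at h4
    rw [h1]
    omega
  have hnt : ∃ f : FN (N * r), f ≠ 0 ∧ W f < 1 := by
    refine ⟨heckeAlphaBar Kbar N r (jF N)⁻¹, hα0 _ (inv_ne_zero hj0), ?_⟩
    rw [hW _ (hα0 _ (inv_ne_zero hj0)), hαord, hinv, ← WithZero.exp_zero, WithZero.exp_lt_exp]
    have : 0 < ((N * r : ℕ) : ℤ) := by exact_mod_cast Nat.mul_pos hN0 hr0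
    omega
  obtain ⟨m, hm, h⟩ := CL.exists_mul_ord_placeOfValuation W hK hnt
  set w : Place Kbar (FN (N * r)) := CL.placeOfValuation W hK hnt with hw
  have key : ∀ y : FN (N * r), y ≠ 0 → (τ y).order = (m : ℤ) * w.ord y := by
    intro y hy
    have h1 := h y hy
    rw [hW y hy, WithZero.exp_inj] at h1
    omega
  -- `m ∣ N`
  have hβ0 : heckeBetaBar Kbar N r (jF N) ≠ 0 := (map_ne_zero (heckeBetaBar Kbar N r)).2 hj0
  have h1 := key _ hβ0
  rw [hβ, B.order_qExpand, B.order_twist, hj, B.order_Jser_one] at h1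
  set c : ℤ := -w.ord (heckeBetaBar Kbar N r (jF N)) with hc
  have hNc : (N : ℤ) = m * c := by rw [hc]; linarith
  have hmpos : (0 : ℤ) < m := by exact_mod_cast hm
  have hcpos : 0 < c := by
    have h2 : (0 : ℤ) < m * c := by rw [← hNc]; exact_mod_cast hN0
    exact (mul_pos_iff_of_pos_left hmpos).1 h2
  have hord : ∀ x : FN N, x ≠ 0 → w.ord (heckeAlphaBar Kbar N r x) =
      c * r * (x : LaurentSeries Kbar).order := by
    intro x hx
    have h2 := key _ (hα0 x hx)
    rw [hαord] at h2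
    push_cast at h2
    rw [hNc] at h2
    have h3 : (m : ℤ) * (c * r * (x : LaurentSeries Kbar).order) =
        m * w.ord (heckeAlphaBar Kbar N r x) := by rw [← h2]; ring
    exact (mul_left_cancel₀ hmpos.ne' h3).symm
  refine ⟨w, ?_⟩
  have hne : {n : ℕ | 0 < n ∧ ∃ f : FN N, f ≠ 0 ∧
      w.ord (heckeAlphaBar Kbar N r f) = n}.Nonempty := by
    refine ⟨(c * r).toNat, ?_, (jF N)⁻¹, inv_ne_zero hj0, ?_⟩
    · have : 0 < c * r := mul_pos hcpos (by exact_mod_cast hr0)
      omega
    · rw [hord _ (inv_ne_zero hj0), hinv, mul_one]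
      have : 0 < c * r := mul_pos hcpos (by exact_mod_cast hr0)
      omega
  obtain ⟨hpos, f, hf0, hf⟩ := Nat.sInf_mem hne
  have hdef : w.ramificationIndexAlong (heckeAlphaBar Kbar N r) = sInf {n : ℕ | 0 < n ∧
      ∃ f : FN N, f ≠ 0 ∧ w.ord (heckeAlphaBar Kbar N r f) = n} := rfl
  rw [hdef]
  rw [hord f hf0] at hf
  set e : ℕ := sInf {n : ℕ | 0 < n ∧ ∃ f : FN N, f ≠ 0 ∧
      w.ord (heckeAlphaBar Kbar N r f) = n} with he
  have hepos : (0 : ℤ) < e := by exact_mod_cast hpos
  have hrpos : (0 : ℤ) < r := by exact_mod_cast hr0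
  have ho : 0 < (f : LaurentSeries Kbar).order := by
    have h2 : 0 < c * r * (f : LaurentSeries Kbar).order := by rw [hf]; exact hepos
    exact (mul_pos_iff_of_pos_left (mul_pos hcpos hrpos)).1 h2
  have : (r : ℤ) ≤ e := by
    rw [← hf]
    nlinarith [mul_pos hcpos hrpos]
  exact_mod_cast this

end Fermat.Agent.S19.Glue

end
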