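/-
S19, part E (level raising), abstract part 1: the pull-back `Pic0 K F → Pic0 K F'` along a finite
extension of function fields commutes with semilinear automorphisms.  Owner: helper259.
-/
import Fermat.Prelude.Def_AlgebraicCurve_Correspondence

set_option autoImplicit false

noncomputable section

namespace Fermat.Agent.S19.Glue

open AlgebraicCurve

variable {K F F' : Type*} [Field K] [Field F] [Field F'] [Algebra K F] [Algebra K F']
  [Algebra F F'] [IsScalarTower K F F'] [Algebra.IsIntegral F F']

omit [Algebra K F] [IsScalarTower K F F'] [Algebra.IsIntegral F F'] in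
theorem ord_inv_smul (g' : SemilinearAut K F') (w : Place K F') (y : F') :
    (g'⁻¹ • w).ord y = w.ord (g' • y) := by
  have h := SemilinearAut.ord_smul g' (g'⁻¹ • w) y
  rw [smul_inv_smul] at h
  exact h.symm

theorem restrict_inv_smul (g : SemilinearAut K F) (g' : SemilinearAut K F')
    (h : ∀ x : F, g' • algebraMap F F' x = algebraMap F F' (g • x)) (w : Place K F') :
    (g'⁻¹ • w).restrict F = g⁻¹ • w.restrict F := by
  apply Place.ext
  ext f
  rw [SemilinearAut.smul_toValuationSubring, ValuationSubring.mem_pointwise_smul_iff_inv_smul_mem,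
    inv_inv, Place.restrict_toValuationSubring, Place.restrict_toValuationSubring,
    ValuationSubring.mem_comap, ValuationSubring.mem_comap, SemilinearAut.smul_toValuationSubring,
    ValuationSubring.mem_pointwise_smul_iff_inv_smul_mem, inv_inv, h]

omit [IsScalarTower K F F'] [Algebra.IsIntegral F F'] in
theorem ramificationIndex_inv_smul (g : SemilinearAut K F) (g' : SemilinearAut K F')
    (h : ∀ x : F, g' • algebraMap F F' x = algebraMap F F' (g • x)) (w : Place K F') :
    (g'⁻¹ • w).ramificationIndex F = w.ramificationIndex F := by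
  unfold Place.ramificationIndex
  congr 1
  ext n
  simp only [Set.mem_ofPred_eq, ord_inv_smul, h]
  constructor
  · rintro ⟨hn, f, hf, hfn⟩
    exact ⟨hn, g • f, by simpa using hf, hfn⟩
  · rintro ⟨hn, f, hf, hfn⟩
    refine ⟨hn, g⁻¹ • f, ?_, by rw [smul_inv_smul]; exact hfn⟩
    intro h0
    apply hf
    have := congrArg (g • ·) h0
    simpa using this

theorem pullback_smul [HasPrincipalDivisors K F'] (g : SemilinearAut K F)
    (g' : SemilinearAut K F') (h : ∀ x : F, g' • algebraMap F F' x = algebraMap F F' (g • x))
    (D : Divisor K F) : Divisor.pullback F' (g • D) = g' • Divisor.pullback F' D := by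
  ext w
  rw [Divisor.pullback_apply, SemilinearAut.divisor_smul_apply, SemilinearAut.divisor_smul_apply,
    Divisor.pullback_apply, restrict_inv_smul g g' h, ramificationIndex_inv_smul g g' h]

/-- the pull-back of divisor classes commutes with semilinear automorphisms. -/
theorem pullbackHom_smul [HasPrincipalDivisors K F'] [FundamentalIdentity K F F']
    (g : SemilinearAut K F) (g' : SemilinearAut K F')
    (h : ∀ x : F, g' • algebraMap F F' x = algebraMap F F' (g • x)) (x : Pic0 K F) :
    Pic0.pullbackHom F' (g • x) = g' • Pic0.pullbackHom F' x := by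
  obtain ⟨D, rfl⟩ := Pic0.mk_surjective x
  rw [SemilinearAut.pic0_smul_mk, Pic0.pullbackHom_mk, Pic0.pullbackHom_mk,
    SemilinearAut.pic0_smul_mk]
  refine congrArg Pic0.mk (Subtype.ext ?_)
  rw [Pic0.coe_pullbackDegZeroHom, SemilinearAut.coe_degZeroSMulHom,
    SemilinearAut.coe_degZeroSMulHom, Pic0.coe_pullbackDegZeroHom]
  exact pullback_smul g g' h _

end Fermat.Agent.S19.Glue

end
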