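/-
S19, part E (level raising), abstract part 2.  Owner of the statement: helper259.

`F'/F` a finite extension of function fields over an algebraically closed field of characteristic
zero.  If some place `w` of `F'` has ramification index `e(w) > [F' : F] / 2`, the pull-back
`Pic0 K F → Pic0 K F'` is injective on torsion.

Proof.  `x = [D]`, `n D = div f`, `π^* D = div h` (`h ∈ F'`).  Then `div (h ^ n) = div f` in `F'`, so
`h ^ n = c f` with `c ∈ K` (a function without zeros and poles is constant), and `c` is an `n`-th power: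
wlog `h ^ n = f`.  Put `E = F⟮h⟯`.  By `KLB.kummer_bound` (`M = n`, `n ∣ ord_v f`) every place of `E` has
ramification index `1` over `F`.  With `u = w|_E`: `e(w | F) = e(w | u) e(u | F) = e(w | u) ≤ [F' : E]`
(`KLB.exists_placeOver_restrict`, `KLB.PlaceOver.tower_eq_kb`, `KLB.PlaceOver.le_finrank`), so
`[E : F] [F' : E] = [F' : F] < 2 [F' : E]`, `[E : F] = 1`, `h ∈ F`.  Finally `π^* (div_F h - D) = 0` and `π^*` is
injective on divisors (`Divisor.pullback_apply`, `ramificationIndex_pos`, every place of `F` is a restriction: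
the fibre is nonempty by `S37.HeckeInputs.sum_ramificationIndex`), hence `D = div_F h`.
-/
import Fermat.Agent.S37.HeckeInputs.FundId
import Fermat.Agent.KLB.Tame.KummerBound

set_option autoImplicit false

noncomputable section

namespace Fermat.Agent.S19.Glue

open AlgebraicCurve Fermat.Agent.S24.FF

variable {K F F' : Type*} [Field K] [Field F] [Field F'] [Algebra K F] [Algebra K F']
  [Algebra F F'] [IsScalarTower K F F']

open IntermediateField in
/-- the Kummer core: an `n`-th root in `F'` of a function `f ∈ F` whose divisor is divisible by `n`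
lies in `F` as soon as some place of `F'` has ramification index `> [F' : F] / 2`. -/
private theorem PullInj_core [CharZero K] [Module.Finite F F']
    (w : Place K F') (hw : Module.finrank F F' < 2 * w.ramificationIndex F) {n : ℕ} (hn : 0 < n)
    {f : F} (hf : f ≠ 0) (hdiv : ∀ v : Place K F, (n : ℤ) ∣ v.ord f) {h₁ : F'}
    (hh : h₁ ^ n = algebraMap F F' f) : ∃ h₀ : F, algebraMap F F' h₀ = h₁ := by
  have htop : IntermediateField.adjoin F {AdjoinSimple.gen F h₁} = ⊤ := by
    apply IntermediateField.lift_injective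
    rw [IntermediateField.lift_adjoin_simple, IntermediateField.lift_top, AdjoinSimple.coe_gen]
  have hz : (AdjoinSimple.gen F h₁) ^ n = algebraMap F F⟮h₁⟯ f := by
    apply Subtype.ext
    simpa using hh
  have t1 : IsScalarTower K F⟮h₁⟯ F' := IsScalarTower.of_algebraMap_eq fun a => rfl
  have t2 : IsScalarTower K F F⟮h₁⟯ := IsScalarTower.of_algebraMap_eq fun a =>
    Subtype.ext (IsScalarTower.algebraMap_apply K F F' a)
  obtain ⟨u, e₂, h₂⟩ := KLB.exists_placeOver_restrict (E := F⟮h₁⟯) w
  obtain ⟨v', e₁, h₁'⟩ := KLB.exists_placeOver_restrict (E := F) u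
  have h0 : KLB.PlaceOver (w.restrict F) w (w.ramificationIndex F) :=
    ⟨w.ramificationIndex_pos, fun g => w.ord_restrict g⟩
  obtain ⟨-, he⟩ := KLB.PlaceOver.tower_eq_kb h0 h₂ h₁'
  have hk := KLB.kummer_bound (AdjoinSimple.gen F h₁) n hn f hf hz htop h₁'
  have hgcd : Int.gcd n (v'.ord f) = n := by
    have := Int.gcd_eq_left (a := (n : ℤ)) (b := v'.ord f) (by positivity) (hdiv v')
    exact_mod_cast this
  rw [hgcd] at hk
  have he₁ : e₁ = 1 := by
    have h1 := h₁'.1
    have h2 : e₁ ≤ 1 := by
      by_contra hcon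
      push Not at hcon
      have : 2 * n ≤ e₁ * n := Nat.mul_le_mul_right n hcon
      omega
    omega
  have hle := KLB.PlaceOver.le_finrank h₂
  have hmul := Module.finrank_mul_finrank F F⟮h₁⟯ F'
  have hpos : 0 < Module.finrank F F⟮h₁⟯ := Module.finrank_pos
  have hone : Module.finrank F F⟮h₁⟯ = 1 := by
    by_contra hcon
    have h2 : 2 ≤ Module.finrank F F⟮h₁⟯ := by omega
    have h3 : 2 * Module.finrank F⟮h₁⟯ F' ≤ Module.finrank F F⟮h₁⟯ * Module.finrank F⟮h₁⟯ F' :=
      Nat.mul_le_mul_right _ h2
    rw [he₁, one_mul] at he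
    omega
  rw [IntermediateField.finrank_eq_one_iff] at hone
  have hmem : h₁ ∈ F⟮h₁⟯ := mem_adjoin_simple_self F h₁
  rw [hone, IntermediateField.mem_bot] at hmem
  exact hmem

/-- a transcendental function has a pole. -/
private theorem PullInj_exists_pole [IsAlgClosed K] [CharZero K] [IsFF1 K F] {t : F}
    (ht : Transcendental K t) : ∃ v : Place K F, v.ord t < 0 := by
  obtain ⟨s, hs, hsum⟩ := exists_finset_ord_neg t ht
  have : FiniteDimensional (IntermediateField.adjoin K {t}) F := IsFF1.finite t ht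
  have hpos : 0 < Module.finrank (IntermediateField.adjoin K {t}) F := Module.finrank_pos
  have hne : s.Nonempty := by
    rw [Finset.nonempty_iff_ne_empty]
    rintro rfl
    simp at hsum
    omega
  obtain ⟨v, hv⟩ := hne
  exact ⟨v, (hs v).mp hv⟩

/-- a function without zeros and poles is constant. -/
private theorem PullInj_const [IsAlgClosed K] [CharZero K] [IsFF1 K F] {u : F}
    (hu : ∀ v : Place K F, v.ord u = 0) : ∃ c : K, u = algebraMap K F c := by
  rcases exists_const_or_transcendental (K := K) u with h | h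
  · exact h
  · obtain ⟨v, hv⟩ := PullInj_exists_pole h
    rw [hu v] at hv
    omega

/-- every place of `F` is the restriction of a place of `F'`. -/
private theorem PullInj_exists_restrict [IsAlgClosed K] [CharZero K] [IsFF1 K F']
    [Module.Finite F F'] [HasPrincipalDivisors K F'] (v : Place K F) :
    ∃ w : Place K F', w.restrict F = v := by
  have h := S37.HeckeInputs.sum_ramificationIndex (F' := F') v
  have hpos : 0 < Module.finrank F F' := Module.finrank_pos
  have hne : (v.fiber F').Nonempty := by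
    rw [Finset.nonempty_iff_ne_empty]
    intro h0
    rw [h0, Finset.sum_empty] at h
    omega
  obtain ⟨w, hw⟩ := hne
  exact ⟨w, Place.mem_fiber.mp hw⟩

theorem eq_zero_of_pullbackHom_eq_zero [IsAlgClosed K] [CharZero K] [IsFF1 K F] [IsFF1 K F']
    [Module.Finite F F'] [HasPrincipalDivisors K F'] [FundamentalIdentity K F F']
    (w : Place K F') (hw : Module.finrank F F' < 2 * w.ramificationIndex F) {n : ℕ} (hn : 0 < n)
    {x : Pic0 K F} (hx : (n : ℤ) • x = 0) (h0 : Pic0.pullbackHom F' x = 0) : x = 0 := by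
  obtain ⟨D, rfl⟩ := Pic0.mk_surjective x
  -- `n D = div f`
  have hx' : (n : ℤ) • D ∈ (Divisor.principal (K := K) (F := F)).addSubgroupOf
      (Divisor.degZero (K := K) (F := F)) := by
    rw [← QuotientAddGroup.eq_zero_iff]
    exact hx
  obtain ⟨f, hf, hDf⟩ : ((n : ℤ) • (D : Divisor K F)).IsPrincipal := hx'
  have hDf' : ∀ v : Place K F, (n : ℤ) * (D : Divisor K F) v = v.ord f := by
    intro v
    rw [← hDf v]
    simp
  -- `π^* D = div h`
  rw [Pic0.pullbackHom_mk] at h0
  have h0' : Pic0.pullbackDegZeroHom F' D ∈ (Divisor.principal (K := K) (F := F')).addSubgroupOf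
      (Divisor.degZero (K := K) (F := F')) := by
    rw [← QuotientAddGroup.eq_zero_iff]
    exact h0
  obtain ⟨h, hh, hDh⟩ : (Divisor.pullback F' (D : Divisor K F)).IsPrincipal := h0'
  have hDh' : ∀ w' : Place K F',
      (w'.ramificationIndex F : ℤ) * (D : Divisor K F) (w'.restrict F) = w'.ord h := by
    intro w'
    rw [← hDh w', Divisor.pullback_apply]
  -- `h ^ n / f` is a constant
  have hf' : algebraMap F F' f ≠ 0 := by simpa using hf
  obtain ⟨c, hc⟩ : ∃ c : K, h ^ n * (algebraMap F F' f)⁻¹ = algebraMap K F' c := by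
    apply PullInj_const
    intro w'
    rw [w'.ord_mul (pow_ne_zero n hh) (inv_ne_zero hf'), w'.ord_inv, ord_pow, w'.ord_restrict,
      ← hDf', ← hDh']
    ring
  have hc0 : c ≠ 0 := by
    rintro rfl
    rw [map_zero] at hc
    exact mul_ne_zero (pow_ne_zero n hh) (inv_ne_zero hf') hc
  obtain ⟨c₁, hc₁⟩ := IsAlgClosed.exists_pow_nat_eq c hn
  have hc₁0 : c₁ ≠ 0 := by
    rintro rfl
    rw [zero_pow hn.ne'] at hc₁
    exact hc0 hc₁.symm
  have hc₁' : algebraMap K F' c₁ ≠ 0 := by simpa using hc₁0
  -- normalisation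
  have hroot : (h * (algebraMap K F' c₁)⁻¹) ^ n = algebraMap F F' f := by
    rw [mul_pow, inv_pow, ← map_pow, hc₁, ← hc]
    field_simp
  obtain ⟨h₀, hh₀⟩ := PullInj_core w hw hn hf (fun v => ⟨_, (hDf' v).symm⟩) hroot
  have hh₀0 : h₀ ≠ 0 := by
    rintro rfl
    rw [map_zero] at hh₀
    exact mul_ne_zero hh (inv_ne_zero hc₁') hh₀.symm
  -- `D = div h₀`
  have hprin : (D : Divisor K F).IsPrincipal := by
    refine ⟨h₀, hh₀0, fun v => ?_⟩
    obtain ⟨w', rfl⟩ := PullInj_exists_restrict (F' := F') v
    have he : (0 : ℤ) < (w'.ramificationIndex F : ℤ) := by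
      exact_mod_cast w'.ramificationIndex_pos (F := F)
    have h1 : w'.ord (algebraMap F F' h₀) = w'.ord h := by
      rw [hh₀, w'.ord_mul hh (inv_ne_zero hc₁'), w'.ord_inv, ord_algebraMap]
      ring
    rw [w'.ord_restrict, ← hDh'] at h1
    exact (mul_left_cancel₀ he.ne' h1).symm
  exact (QuotientAddGroup.eq_zero_iff D).2 hprin

end Fermat.Agent.S19.Glue

end
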