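/-
S19, part E (level raising): `J₀(N)[n] → J₀(N r)[n]` (pull-back along `α`) is injective and Galois
equivariant for a prime `r ∤ N`; hence Hopf orders descend from level `N r` to level `N`.
Owner: helper259.
-/
import Fermat.Agent.S19.Glue.Defs
import Fermat.Agent.S19.Glue.Pull
import Fermat.Agent.S19.Glue.PullInj
import Fermat.Agent.S19.Glue.AlphaRam
import Fermat.Agent.S19.Closure
import Fermat.Agent.S37.HeckeInputs.Main
import Fermat.Agent.Lib.MulHecke.Degree

set_option autoImplicit false
set_option linter.style.haveILetI false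

noncomputable section

namespace Fermat.Agent.S19.Glue

open ModularCurve AlgebraicCurve Fermat.Agent.S24 Fermat.Agent.S37.HeckeInputs

variable (N r : ℕ) [NeZero N] [NeZero r]

/-- `α^* : J₀(N) → J₀(N r)`. -/
def pic0Alpha : JZero N →+ JZero (N * r) :=
  letI := algebraAlong (heckeAlphaBar Kbar N r)
  haveI := isScalarTower_along (heckeAlphaBar Kbar N r)
  haveI := isIntegral_along (heckeAlphaBar Kbar N r) (alpha_integral N r)
  haveI : FundamentalIdentity Kbar (FN N) (FN (N * r)) := alpha_fundamentalIdentity N r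
  Pic0.pullbackHom (FN (N * r))

theorem gal_alpha (σ : Gal) (x : FN N) :
    gal (N * r) σ • heckeAlphaBar Kbar N r x = heckeAlphaBar Kbar N r (gal N σ • x) := by
  apply Subtype.ext
  rw [coe_arithmeticGalois_smul, coe_heckeAlphaBar, coe_heckeAlphaBar, coe_arithmeticGalois_smul]

theorem pic0Alpha_smul (σ : Gal) (x : JZero N) :
    pic0Alpha N r (σ • x) = σ • pic0Alpha N r x := by
  letI := algebraAlong (heckeAlphaBar Kbar N r)
  haveI := isScalarTower_along (heckeAlphaBar Kbar N r)
  haveI := isIntegral_along (heckeAlphaBar Kbar N r) (alpha_integral N r)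
  haveI : FundamentalIdentity Kbar (FN N) (FN (N * r)) := alpha_fundamentalIdentity N r
  exact pullbackHom_smul (gal N σ) (gal (N * r) σ) (gal_alpha N r σ) x

theorem eq_zero_of_pic0Alpha_eq_zero (hr : r.Prime) (hrN : ¬ r ∣ N) {n : ℕ} (hn : 0 < n)
    {x : JZero N} (hx : (n : ℤ) • x = 0) (h0 : pic0Alpha N r x = 0) : x = 0 := by
  obtain ⟨w, hw⟩ := exists_place_le_ramificationIndexAlong N r
    ((Nat.Prime.coprime_iff_not_dvd hr).2 hrN)
  have hdeg := Fermat.Agent.Lib.MulHecke.finrank_algAlpha N r hr hrN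
  letI := algebraAlong (heckeAlphaBar Kbar N r)
  haveI := isScalarTower_along (heckeAlphaBar Kbar N r)
  haveI : Module.Finite (FN N) (FN (N * r)) := alpha_finite N r
  haveI : FundamentalIdentity Kbar (FN N) (FN (N * r)) := alpha_fundamentalIdentity N r
  refine eq_zero_of_pullbackHom_eq_zero (F' := FN (N * r)) w ?_ hn hx h0
  have hw' : r ≤ w.ramificationIndex (FN N) := hw
  have h2 := hr.two_le
  have hdeg' : Module.finrank (FN N) (FN (N * r)) = r + 1 := hdeg
  show Module.finrank (FN N) (FN (N * r)) < 2 * w.ramificationIndex (FN N)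
  rw [hdeg']
  omega

/-- `α^* : J₀(N)[n] → J₀(N r)[n]`. -/
def levelMap (n : ℕ) : Tors N n →+ Tors (N * r) n :=
  ((pic0Alpha N r).comp (Pic0.torsion Qb (modularFunctionFieldBar N) n).subtype).codRestrict _
    fun x => by
      rw [Pic0.mem_torsion, AddMonoidHom.comp_apply, ← map_zsmul]
      have h : (n : ℤ) • ((Pic0.torsion Qb (modularFunctionFieldBar N) n).subtype x) = 0 :=
        Pic0.mem_torsion.1 x.2
      rw [h, map_zero]

theorem coe_levelMap (n : ℕ) (x : Tors N n) :
    ((levelMap N r n x : Tors (N * r) n) : JZero (N * r)) = pic0Alpha N r (x : JZero N) := rfl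

theorem levelMap_smul (n : ℕ) (σ : Gal) (x : Tors N n) :
    levelMap N r n (σ • x) = σ • levelMap N r n x := by
  apply Subtype.ext
  rw [coe_levelMap, coe_smul, coe_smul, coe_levelMap, pic0Alpha_smul]

theorem levelMap_injective (hr : r.Prime) (hrN : ¬ r ∣ N) {n : ℕ} (hn : 0 < n) :
    Function.Injective (levelMap N r n) := by
  rw [injective_iff_map_eq_zero]
  intro x hx
  apply Subtype.ext
  refine eq_zero_of_pic0Alpha_eq_zero N r hr hrN hn (Pic0.mem_torsion.1 x.2) ?_
  rw [← coe_levelMap, hx]
  rfl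

/-- (E) Hopf orders descend from level `N r` to level `N`. -/
theorem hasHopfOrder_of_level (ℓ : ℕ) [Fact ℓ.Prime] (hr : r.Prime) (hrN : ¬ r ∣ N) {n : ℕ}
    (hn : 0 < n) (h : HasHopfOrder ℓ (Tors (N * r) n)) : HasHopfOrder ℓ (Tors N n) := by
  have := finite_tors (N * r) n hn
  exact HasHopfOrder.of_injective (levelMap N r n) (levelMap_injective N r hr hrN hn)
    (levelMap_smul N r n) h

end Fermat.Agent.S19.Glue

end
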