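/-
S19, parts D + E assembled.  Owner: helper259.

`GoodLevelStmt` is what Part C has to provide: the integrality statement `IntStmt M ℓ (ℓ ^ k)` at the levels
`M` prime to `ℓ` which are divisible by a prime `r ∈ {2, 3}`, `r ≠ ℓ` (so that the Hauptmodul `h_r` is
available as a coordinate).  `frozen_of_goodLevel` deduces the frozen statement S19.
-/
import Fermat.Agent.S19.Glue.Pairing
import Fermat.Agent.S19.Glue.Level
import Fermat.Agent.S19.FlatOfOrder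

set_option autoImplicit false

noncomputable section

namespace Fermat.Agent.S19.Glue

open ModularCurve AlgebraicCurve

/-- The output of Part C. -/
def GoodLevelStmt : Prop :=
  ∀ (M ℓ r : ℕ) [NeZero M] [Fact ℓ.Prime], ¬ ℓ ∣ M → (r = 2 ∨ r = 3) → r ≠ ℓ → r ∣ M →
    ∀ k : ℕ, IntStmt M ℓ (ℓ ^ k)

theorem hasHopfOrder_tors (H : GoodLevelStmt) (N ℓ : ℕ) [NeZero N] [hℓ : Fact ℓ.Prime]
    (hℓN : ¬ ℓ ∣ N) (k : ℕ) : HasHopfOrder ℓ (Tors N (ℓ ^ k)) := by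
  have hn : 0 < ℓ ^ k := pow_pos hℓ.out.pos k
  -- the auxiliary prime
  obtain ⟨r, hr23, hrℓ⟩ : ∃ r : ℕ, (r = 2 ∨ r = 3) ∧ r ≠ ℓ := by
    by_cases h2 : ℓ = 2
    · exact ⟨3, Or.inr rfl, by rw [h2]; decide⟩
    · exact ⟨2, Or.inl rfl, fun h => h2 h.symm⟩
  have hr : r.Prime := by
    rcases hr23 with rfl | rfl
    · exact Nat.prime_two
    · exact Nat.prime_three
  by_cases hrN : r ∣ N
  · exact hasHopfOrder_of_intStmt N ℓ _ hn (H N ℓ r hℓN hr23 hrℓ hrN k)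
  · have : NeZero r := ⟨hr.ne_zero⟩
    refine hasHopfOrder_of_level N r ℓ hr hrN hn ?_
    refine hasHopfOrder_of_intStmt (N * r) ℓ _ hn (H (N * r) ℓ r ?_ hr23 hrℓ (Dvd.intro_left N rfl) k)
    intro h
    rcases (Nat.Prime.dvd_mul hℓ.out).1 h with h | h
    · exact hℓN h
    · exact hrℓ ((Nat.prime_dvd_prime_iff_eq hℓ.out hr).1 h).symm

theorem isFlatModule_tors (H : GoodLevelStmt) (N ℓ : ℕ) [NeZero N] [hℓ : Fact ℓ.Prime]
    (hℓN : ¬ ℓ ∣ N) (k : ℕ) : IsFlatModule ℓ (Tors N (ℓ ^ k)) := by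
  have := finite_tors N (ℓ ^ k) (pow_pos hℓ.out.pos k)
  exact (hasHopfOrder_tors H N ℓ hℓN k).isFlatModule

/-- The frozen statement S19 from the output of Part C. -/
theorem frozen_of_goodLevel (H : GoodLevelStmt)
    (p : ℕ) [NeZero p] (ℓ : ℕ) [Fact ℓ.Prime] (hℓp : ¬ ℓ ∣ p) (k : ℕ) :
    ∃ (H : Type) (_ : CommRing H) (_ : HopfAlgebra (GaloisRep.ratLocalizedAt ℓ) H),
      Module.Finite (GaloisRep.ratLocalizedAt ℓ) H ∧ Module.Flat (GaloisRep.ratLocalizedAt ℓ) H ∧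
      Coalgebra.IsCocomm (GaloisRep.ratLocalizedAt ℓ) H ∧
      ∃ e : WithConv (H →ₐ[GaloisRep.ratLocalizedAt ℓ] AlgebraicClosure ℚ) ≃
          ↥(Submodule.torsionBy ℤ (JZero p) ((ℓ : ℤ) ^ k)),
        (∀ f g, e (f * g) = e f + e g) ∧
        ∀ (σ : AlgebraicClosure ℚ ≃ₐ[ℚ] AlgebraicClosure ℚ)
          (f g : WithConv (H →ₐ[GaloisRep.ratLocalizedAt ℓ] AlgebraicClosure ℚ)),
          (∀ h : H, g h = σ (f h)) → ((e g : JZero p)) = σ • (e f : JZero p) :=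
  frozen_of_isFlatModule p ℓ k (isFlatModule_tors H p ℓ hℓp k)

end Fermat.Agent.S19.Glue

end
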