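/-
S19: Part C (`Int.isSI_weil`) + LOC (`inSpan_of_inertia_local`) give the integrality statement, hence
`GoodLevelStmt`.  Owner: helper259.
-/
import Fermat.Agent.S19.Glue.Main
import Fermat.Agent.S19.Int.Reps
import Fermat.Agent.S19.Loc.Main
import Fermat.Agent.S18.Base.Bases

set_option autoImplicit false

noncomputable section

namespace Fermat.Agent.S19.Glue

open ModularCurve AlgebraicCurve

theorem intStmt_of_baseData (M ℓ : ℕ) [NeZero M] [Fact ℓ.Prime] (hℓ : ¬ ℓ ∣ M)
    (D : S18.BaseData M ℓ) {n : ℕ} (hn : 0 < n) : IntStmt M ℓ n := by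
  intro A hA v
  have := finite_tors M n hn
  refine inSpan_of_inertia_local hA (isSmoothAct_tors M n hn) _ fun w0 => ?_
  exact Int.isSI_weil hℓ D A hA hn (tors_smul_eq_zero M n v) (tors_smul_eq_zero M n w0)

theorem goodLevelStmt : GoodLevelStmt := by
  intro M ℓ r _ hℓ hℓM hr hrℓ hrM k
  have hp : ℓ.Prime := hℓ.out
  have hn : 0 < ℓ ^ k := pow_pos hp.pos k
  by_cases h2 : ℓ = 2
  · subst h2
    have h3 : 3 ∣ M := by
      rcases hr with rfl | rfl
      · exact absurd rfl hrℓ
      · exact hrM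
    obtain ⟨D⟩ := S18.Base.nonempty_baseData_h3 M h3
    exact intStmt_of_baseData M 2 hℓM D hn
  by_cases h3 : ℓ = 3
  · subst h3
    have h2' : 2 ∣ M := by
      rcases hr with rfl | rfl
      · exact hrM
      · exact absurd rfl hrℓ
    obtain ⟨D⟩ := S18.Base.nonempty_baseData_h2 M h2'
    exact intStmt_of_baseData M 3 hℓM D hn
  · have h5 : 5 ≤ ℓ := by
      have h2le := hp.two_le
      by_contra hlt
      have h4 : ℓ = 4 := by omega
      rw [h4] at hp
      exact absurd hp (by decide)
    obtain ⟨D⟩ := S18.Base.nonempty_baseData_j M ℓ hp h5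
    exact intStmt_of_baseData M ℓ hℓM D hn

end Fermat.Agent.S19.Glue

end
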